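/-
Row 37 (S43), block FREE (architect helper176).  **THE CONCRETE EXPORT OF THE BLOCK.**

`F1 = F1Q q M` (`±Γ₁(q) ∩ Γ₀(q M)`), `F0 = modularFunctionFieldFull (q * M)` (`Γ₀(q M)`), `g` a generator of `(ZMod q)ˣ`,
`δ = dia q M g`, `l ∤ q M n` a prime, `T₁ = heckeOpT q M`, `T₀` ANY `HeckeOp1 F0 l` with trivial diamond;
`up = Ops.Pi.up q M n`, `dn = Ops.Pi.dn q M n` (helper185).

* `heckeOpT_dia` : `T_l` commutes with the diamond operators;
* `inputQ`       : the `Free.Input`;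
* `es0`          : Eichler-Shimura at level `Γ₀(N)` for every `l ∤ N n` (from `GAL.klStatement`, through `Dict.Bridge.brW`);
* `kerUp`, `inv`, `coker` : (KERUP), (INV), (COKER) on the FULL Kummer modules.
-/
import Fermat.Agent.S43.Free.Inst
import Fermat.Agent.S43.Free.RamInst
import Fermat.Agent.S43.Ops.Pi.Inst
import Fermat.Agent.S43.Ops.T.DiaBridge
import Fermat.Agent.S43.Ops.Rel.Main
import Fermat.Agent.S43.Dict.Bridge
import Fermat.Agent.GAL.E.Package
import Fermat.Agent.GAL.KLInputs.Main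
import Fermat.Agent.S15.Adm.Frob

set_option autoImplicit false

noncomputable section

namespace Fermat.Agent.S43.Free.Conc

open ModularCurve AlgebraicCurve CongruenceSubgroup
open Fermat.Agent.S24 Fermat.Agent.S48.A Fermat.Agent.S48.BB Fermat.Agent.S48.BB.M Fermat.Agent.S48.BB.E
  Fermat.Agent.S48.BB.T Fermat.Agent.S48.BB.H Fermat.Agent.S43.Ops Fermat.Agent.S43.Ops.Pi
open Fermat.Agent.GAL.E (GQ)
open scoped MatrixGroups OnePoint

/-- **Eichler-Shimura at level `Γ₀(N)`**, for any `T_l` with trivial diamond, `l ∤ N n`. -/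
theorem es0 (N : ℕ) [NeZero N] {l : ℕ} [NeZero l] (hl : l.Prime) (hlN : ¬ l ∣ N) {n : ℕ}
    (hln : ¬ l ∣ n) (T₀ : HeckeOp1 (modularFunctionFieldFull N) l) (hT₀ : T₀.D = AlgEquiv.refl)
    (A : ValuationSubring Kbar) (hA : A.LiesOverPrime l) (φ : GQ) (hφ : A.IsFrobeniusAt φ l)
    (w : W1 (modularFunctionFieldFull N) n) :
    rho (modularFunctionFieldFull N) n φ (rho (modularFunctionFieldFull N) n φ w) -
      T₀.TW n (rho (modularFunctionFieldFull N) n φ w) + l • w = 0 := by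
  exact GAL.E.pkg_eichlerShimura GAL.klStatement (Dict.Bridge.heckeOp T₀ hT₀) n hl hlN hln φ
    ⟨A, hA, hφ⟩ w

variable (q M : ℕ) [NeZero q] [NeZero M] {l : ℕ} [NeZero l]

/-- **`T_l` commutes with the diamond operators.** -/
theorem heckeOpT_dia (hl : l.Prime) (hlN : ¬ l ∣ q * M) (d : (ZMod q)ˣ) (y : FB (F1Q q M)) :
    (heckeOpT q M hl hlN).T (dia q M d y) = dia q M d ((heckeOpT q M hl hlN).T y) := by
  refine (Rel.dia_T_comm (q := q) (M := M) (hL := hL1 q M) le_rfl hl hlN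
    (σ := sig (q * M) (l : ZMod (q * M))) (τ := sg q M d) (sig_mem _ _)
    (dd_left_eq_natCast (dd_sig (isUnit_natCast_of_prime (q * M) hl hlN))) (sg_mem q M d)
    (A := (heckeOpT q M hl hlN).T) (D := dia q M d) ?_ ?_ y).symm
  · intro u
    exact real_heckeOpT q M hl hlN u
  · intro u
    exact real_dia_of d (sg_mem q M d) (dd_sg q M d) u

variable {q M}

/-- **The input of the block FREE at the levels `Γ₀(q M) ⊇ ±Γ₁(q) ∩ Γ₀(q M)`.** -/
def inputQ (g : (ZMod q)ˣ) (hg : ∀ d : (ZMod q)ˣ, d ∈ Subgroup.zpowers g) (hl : l.Prime)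
    (hlN : ¬ l ∣ q * M) (T₀ : HeckeOp1 (modularFunctionFieldFull (q * M)) l)
    (hT₀ : T₀.D = AlgEquiv.refl) :
    Input (modularFunctionFieldFull (q * M)) (F1Q q M) (Gamma0 (q * M)) (H1 q M) (q * M) (q * M) l where
  hL := hL0 q M
  hL' := hL1 q M
  hF := F0_le_F1 q M
  δ := dia q M g
  hfix := dia_alphaB g
  hfixed := exists_alphaB_eq_of_gen q M g hg
  T₀ := T₀
  T₁ := heckeOpT q M hl hlN
  hD := fun u => by
    rw [heckeOpT_D_eq_dia, dia_alphaB, hT₀]
    rfl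
  hδ := heckeOpT_dia q M hl hlN g

section Three

variable (g : (ZMod q)ˣ) (hg : ∀ d : (ZMod q)ˣ, d ∈ Subgroup.zpowers g) (hl : l.Prime)
  (hlN : ¬ l ∣ q * M) (T₀ : HeckeOp1 (modularFunctionFieldFull (q * M)) l)
  (hT₀ : T₀.D = AlgEquiv.refl)

include hg hl hlN hT₀

/-- (KERUP) -/
theorem kerUp {n : ℕ} (hn : 0 < n) (y : W1 (modularFunctionFieldFull (q * M)) n)
    (hy : up q M n y = 0) : T₀.TW n y = (l + 1) • y :=
  (inputQ g hg hl hlN T₀ hT₀).kerUp' hn y hy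

/-- (INV) -/
theorem inv {n : ℕ} (hn : 0 < n) (hn6 : n.Coprime (6 * (q * M)))
    (x : W1 (F1Q q M) n) (hx : autW (dia q M g) n x = x) :
    ∃ y : W1 (modularFunctionFieldFull (q * M)) n,
      up q M n y = (heckeOpT q M hl hlN).TW n x - (l + 1) • x :=
  (inputQ g hg hl hlN T₀ hT₀).inv' hn (fun _ hf => isKum_of_isKum_F1Q q M hn6 hf) x hx

/-- (COKER) -/
theorem coker {n : ℕ} (hn : 0 < n) (hln : ¬ l ∣ n)
    (y : W1 (modularFunctionFieldFull (q * M)) n) :
    ∃ x : W1 (F1Q q M) n, dn q M n x = T₀.TW n y - (l + 1) • y := by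
  obtain ⟨A, φ, hA, hφ⟩ := Fermat.Agent.Lib.Frobenius.exists_liesOverPrime_isFrobeniusAt l hl
  refine (inputQ g hg hl hlN T₀ hT₀).coker' hn φ ?_ ?_ y
  · intro x
    exact es0 (q * M) hl hlN hln T₀ hT₀ A hA φ hφ x
  · intro ζ hζ
    exact Fermat.Agent.S15.Adm.frob_root hl A hA φ hφ hln ζ hζ

end Three

end Fermat.Agent.S43.Free.Conc

end
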