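/-
Row 37 (S43), block FREE (architect helper176).  LEAF FREE-ORDER (helper90): the diamond action `dia q M` has kernel `±1`,
hence a generator of `(ZMod q)ˣ` acts with exact order `(q - 1) / 2`.
PROOF of `dia_eq_one_iff` (→): `dia d = 1` gives `(sg d)⁻¹ • Psi u = Psi u` for all `u` (`Psi_dia_of`); for `f ∈ F1Q q M` and
`g : LL (q M)` realising `f`, `Psi (ofQ f) = g` (`Psi_ofQ_eq`), so `(hL1 q M).stab` gives `(sg d)⁻¹ ∈ H1 q M`, and `mem_H1_iff'`
+ `dd_sg` give `d = ± 1`.  (←): `map_one`, `dia_neg_one`.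
-/
import Fermat.Agent.S43.Ops.Dia

set_option autoImplicit false

noncomputable section

namespace Fermat.Agent.S43.Free

open ModularCurve CongruenceSubgroup
open Fermat.Agent.S24 Fermat.Agent.S48.BB Fermat.Agent.S43.Ops
open scoped MatrixGroups

variable {q M : ℕ} [NeZero q] [NeZero M]

theorem dia_eq_one_iff (d : (ZMod q)ˣ) : dia q M d = 1 ↔ d = 1 ∨ d = -1 := by
  constructor
  · intro h
    have h1 : (sg q M d)⁻¹ ∈ H1 q M := by
      refine (hL1 q M).stab _ fun f hf g hg => ?_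
      have h2 := Psi_dia_of d (sg_mem q M d) (dd_sg q M d) (U.ofQ (⟨f, hf⟩ : F1Q q M))
      rw [h, U.Psi_ofQ_eq (hL1 q M) (⟨f, hf⟩ : F1Q q M) hg] at h2
      have h3 : U.Psi (hL1 q M) ((1 : FB (F1Q q M) ≃ₐ[Kbar] FB (F1Q q M)) (U.ofQ (⟨f, hf⟩ : F1Q q M))) = g :=
        U.Psi_ofQ_eq (hL1 q M) (⟨f, hf⟩ : F1Q q M) hg
      rw [h3] at h2
      exact h2.symm
    have h2 := (mem_H1_iff'.1 (inv_mem_iff.1 h1)).2
    rw [dd_sg] at h2
    rcases h2 with h2 | h2
    · exact Or.inl (Units.ext (by rw [h2, Units.val_one]))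
    · exact Or.inr (Units.ext (by rw [h2, Units.val_neg, Units.val_one]))
  · rintro (rfl | rfl)
    · exact map_one _
    · exact dia_neg_one

theorem orderOf_dia_gen (hq : q.Prime) (hq2 : q ≠ 2) (g : (ZMod q)ˣ)
    (hg : ∀ d : (ZMod q)ˣ, d ∈ Subgroup.zpowers g) : orderOf (dia q M g) = (q - 1) / 2 := by
  haveI : Fact q.Prime := ⟨hq⟩
  have hord : orderOf g = q - 1 := by
    rw [orderOf_eq_card_of_forall_mem_zpowers hg, Nat.card_eq_fintype_card, ZMod.card_units]
  have hodd : q % 2 = 1 := hq.eq_two_or_odd.resolve_left hq2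
  have hq3 : 3 ≤ q := by
    have := hq.two_le
    omega
  have hm : 2 * ((q - 1) / 2) = q - 1 := by omega
  have hm0 : 0 < (q - 1) / 2 := by omega
  rw [orderOf_eq_iff hm0]
  constructor
  · rw [← map_pow, dia_eq_one_iff]
    have h1 : (g ^ ((q - 1) / 2)) * (g ^ ((q - 1) / 2)) = 1 := by
      rw [← pow_add, ← two_mul, hm, ← hord, pow_orderOf_eq_one]
    have h2 : ((g ^ ((q - 1) / 2) : (ZMod q)ˣ) : ZMod q) * ((g ^ ((q - 1) / 2) : (ZMod q)ˣ) : ZMod q) = 1 := by
      rw [← Units.val_mul, h1, Units.val_one]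
    rcases mul_self_eq_one_iff.1 h2 with h3 | h3
    · exact Or.inl (Units.ext (by rw [h3, Units.val_one]))
    · exact Or.inr (Units.ext (by rw [h3, Units.val_neg, Units.val_one]))
  · intro k hk hk0 h
    rw [← map_pow, dia_eq_one_iff] at h
    have h1 : g ^ (2 * k) = 1 := by
      rw [two_mul, pow_add]
      rcases h with h | h
      · rw [h, one_mul]
      · rw [h, neg_mul_neg, one_mul]
    have h2 := orderOf_dvd_of_pow_eq_one h1
    rw [hord] at h2
    have h3 := Nat.le_of_dvd (by omega) h2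
    omega

end Fermat.Agent.S43.Free

end
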